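/-
Program Q (S36), box (K), group-theoretic side (helper13).  File Defs.

THE TWO TRANSFERS `Γ₀(M)^ab → Γ₀(M q)^ab` WITHOUT ANY COPRIMALITY HYPOTHESIS.

* `s35qVa M q` : the transfer along the inclusion `Γ₀(M q) ≤ Γ₀(M)` (ANY `M`, `q`) := `trAb` of
  `s35newNatCorr M q` (representatives `Quotient.out`), so that NAT's transfer `s35natTransfer`
  (helper22, `S35/Nat/Transfer.lean`) is `χ ↦ χ^ab ∘ s35qVa` BY DEFINITION: `s35q_natTransfer_eq`.
* `s35qCorrB M q hq` (`q` prime, `hq : q ∣ M`) : the correspondence with the `U_q`-representatives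
  `u_j = heckeRep q j = [1, j; 0, q]`, `j : ZMod q`: for `γ ∈ Γ₀(M)`,
  `u_j γ = c_j(γ) u_{j'}` with `c_j(γ) ∈ Γ₀(M q)` (Prelude's `heckeMatrix_mul_of_dvd`);
  `s35qVb M q hq := trAb` : the transfer along `γ ↦ δ γ δ⁻¹`, `δ = diag(q, 1)` (`φ_*` on characters).
* `s35qTrB M q hq ψ : Γ₀(M) →* A`, `γ ↦ ∏ j, ψ (coc γ j)` : the `φ`-transfer of a character
  `ψ : Γ₀(M q) →* A` (`A` commutative), with `s35qTrB_eq : ofMul (s35qTrB ψ γ) = ψ^ab (s35qVb [γ])`.
* `s35q_natTransfer_eq_one`, `s35qTrB_eq_one` : if `ω : Γ₀(M q)^ab → Additive A` kills the image of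
  the transfer then the transferred character is trivial.
-/
import Fermat.Agent.S35.New.Bridge

set_option autoImplicit false

noncomputable section

namespace Fermat.Agent.S35

open P2MW.S_ModularForm_heckeT_slash_eq_self_of_mem_Gamma0.ModularForm.HeckeSlashInvariance
open ModularForm CongruenceSubgroup Matrix.SpecialLinearGroup Fermat.Agent.S16LB Fermat.Agent.S41
open scoped MatrixGroups

/-! ### the `α`-transfer, any `M`, `q` -/

section Alpha

variable (M q : ℕ) [Fintype (S35natQ (Gamma0 (M * q)) (Gamma0 M))]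

/-- the transfer `Γ₀(M)^ab → Γ₀(M q)^ab` along the inclusion. -/
def s35qVa : s16lbAb M →+ s16lbAb (M * q) := (s35newNatCorr M q).trAb

variable {M q} {A : Type*} [CommGroup A]

/-- NAT's transfer of `χ` is `χ^ab ∘ s35qVa`. -/
theorem s35q_natTransfer_eq (χ : Gamma0 (M * q) →* A) (γ : Gamma0 M) :
    Additive.ofMul (s35natTransfer χ γ)
      = s16lbDesc (MonoidHom.toAdditive χ) (s35qVa M q (s16lbCls M (Additive.ofMul γ))) := by
  have h1 : s16lbCls M (Additive.ofMul γ) = Additive.ofMul (Abelianization.of γ) := rfl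
  rw [h1, s35qVa, s35newNatCorr_trAb_of, map_sum, s35natTransfer_apply, ofMul_prod]
  refine Finset.sum_congr rfl fun ξ _ => ?_
  have h2 : Additive.ofMul (Abelianization.of (s35natCoc γ ξ))
      = s16lbCls (M * q) (Additive.ofMul (s35natCoc γ ξ)) := rfl
  rw [h2, s16lbDesc_cls]
  rfl

/-- if `ω` kills the image of `s35qVa`, the transfer of the character `γ ↦ ω [γ]` is trivial. -/
theorem s35q_natTransfer_eq_one (ω : s16lbAb (M * q) →+ Additive A)
    (hω : ω.comp (s35qVa M q) = 0) (χ : Gamma0 (M * q) →* A)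
    (hχ : ∀ c : Gamma0 (M * q), Additive.ofMul (χ c) = ω (s16lbCls (M * q) (Additive.ofMul c)))
    (γ : Gamma0 M) : s35natTransfer χ γ = 1 := by
  have h1 : s16lbDesc (MonoidHom.toAdditive χ) = ω := by
    refine s16lbAb_ext fun c => ?_
    rw [s16lbDesc_cls]
    exact hχ (Additive.toMul c)
  have h2 := s35q_natTransfer_eq χ γ
  rw [h1] at h2
  have h3 : ω (s35qVa M q (s16lbCls M (Additive.ofMul γ))) = 0 := by
    have := DFunLike.congr_fun hω (s16lbCls M (Additive.ofMul γ))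
    simpa using this
  rw [h3] at h2
  exact h2

end Alpha

/-! ### the `φ`-transfer, `q ∣ M` -/

section Phi

variable (M q : ℕ) [Fact q.Prime] (hq : q ∣ M)

/-- the `φ`-correspondence for `q ∣ M`: the `U_q`-representatives `u_j = [1, j; 0, q]`. -/
def s35qCorrB : S41Corr (GL (Fin 2) ℝ) (Gamma0 (M * q)) (Gamma0 M) (ZMod q) :=
  S41Corr.ofCosets (s16lbIota (M * q)) (s16lbIota M) (s16lbIota_injective (M * q))
    (fun j => heckeRep q (j : OnePoint (ZMod q)))
    (by
      intro γ i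
      have : NeZero q := ⟨(Fact.out : q.Prime).ne_zero⟩
      have hN := s16lb_dvd_of_mem_Gamma0 γ.2
      have hc : (q : ℤ) ∣ (γ : SL(2, ℤ)) 1 0 := (Int.natCast_dvd_natCast.mpr hq).trans hN
      obtain ⟨g', hg', h⟩ := heckeMatrix_mul_of_dvd (γ : SL(2, ℤ)) hc i
      refine ⟨_, ⟨g', s16lb_mem_Gamma0_of_dvd ?_⟩, h⟩
      rw [hg']
      push_cast
      rw [mul_comm (M : ℤ)]
      exact mul_dvd_mul_left _ hN)
    (fun i j γ' h => OnePoint.coe_injective (s16lb_heckeRep_unique _ _ (γ' : SL(2, ℤ)) h))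

theorem s35qCorrB_ι₁ : (s35qCorrB M q hq).ι₁ = s16lbIota (M * q) := rfl

theorem s35qCorrB_ι₂ : (s35qCorrB M q hq).ι₂ = s16lbIota M := rfl

theorem s35qCorrB_α (j : ZMod q) :
    (s35qCorrB M q hq).α j = heckeRep q (j : OnePoint (ZMod q)) := rfl

theorem s35qCorrB_distinct : (s35qCorrB M q hq).Distinct :=
  S41Corr.ofCosets_distinct _ _ _ _ _ _

/-- `u_j γ = c_j(γ) u_{j'}` in `GL₂(ℝ)`. -/
theorem s35qCorrB_spec (γ : Gamma0 M) (j : ZMod q) :
    heckeRep q (j : OnePoint (ZMod q)) * s16lbIota M γ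
      = s16lbIota (M * q) ((s35qCorrB M q hq).coc γ j)
        * heckeRep q (((s35qCorrB M q hq).idx γ j : ZMod q) : OnePoint (ZMod q)) :=
  (s35qCorrB M q hq).spec γ j

/-- the transfer `Γ₀(M)^ab → Γ₀(M q)^ab` along `γ ↦ δ γ δ⁻¹`, `δ = diag(q, 1)` (`q ∣ M`). -/
def s35qVb : s16lbAb M →+ s16lbAb (M * q) := (s35qCorrB M q hq).trAb

variable {A : Type*} [CommGroup A]

/-- the `φ`-transfer of a character `ψ` of `Γ₀(M q)`: `γ ↦ ∏ j, ψ (c_j(γ))`. -/
def s35qTrB (ψ : Gamma0 (M * q) →* A) : Gamma0 M →* A where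
  toFun γ := ∏ j : ZMod q, ψ ((s35qCorrB M q hq).coc γ j)
  map_one' := by
    simp [S41Corr.coc_one]
  map_mul' γ δ := by
    simp only [S41Corr.coc_mul, map_mul, Finset.prod_mul_distrib]
    congr 1
    exact Equiv.prod_comp ((s35qCorrB M q hq).perm γ)
      (fun j => ψ ((s35qCorrB M q hq).coc δ j))

theorem s35qTrB_apply (ψ : Gamma0 (M * q) →* A) (γ : Gamma0 M) :
    s35qTrB M q hq ψ γ = ∏ j : ZMod q, ψ ((s35qCorrB M q hq).coc γ j) := rfl

variable {M q}

/-- the `φ`-transfer of `ψ` is `ψ^ab ∘ s35qVb`. -/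
theorem s35qTrB_eq (ψ : Gamma0 (M * q) →* A) (γ : Gamma0 M) :
    Additive.ofMul (s35qTrB M q hq ψ γ)
      = s16lbDesc (MonoidHom.toAdditive ψ) (s35qVb M q hq (s16lbCls M (Additive.ofMul γ))) := by
  have h1 : s16lbCls M (Additive.ofMul γ) = Additive.ofMul (Abelianization.of γ) := rfl
  rw [h1, s35qVb, S41Corr.trAb_of, map_sum, s35qTrB_apply, ofMul_prod]
  refine Finset.sum_congr rfl fun j _ => ?_
  have h2 : Additive.ofMul (Abelianization.of ((s35qCorrB M q hq).coc γ j))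
      = s16lbCls (M * q) (Additive.ofMul ((s35qCorrB M q hq).coc γ j)) := rfl
  rw [h2, s16lbDesc_cls]
  rfl

/-- if `ω` kills the image of `s35qVb`, the `φ`-transfer of the character `γ ↦ ω [γ]` is trivial. -/
theorem s35qTrB_eq_one (ω : s16lbAb (M * q) →+ Additive A)
    (hω : ω.comp (s35qVb M q hq) = 0) (ψ : Gamma0 (M * q) →* A)
    (hψ : ∀ c : Gamma0 (M * q), Additive.ofMul (ψ c) = ω (s16lbCls (M * q) (Additive.ofMul c))) :
    s35qTrB M q hq ψ = 1 := by
  have h1 : s16lbDesc (MonoidHom.toAdditive ψ) = ω := by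
    refine s16lbAb_ext fun c => ?_
    rw [s16lbDesc_cls]
    exact hψ (Additive.toMul c)
  refine MonoidHom.ext fun γ => ?_
  have h2 := s35qTrB_eq hq ψ γ
  rw [h1] at h2
  have h3 : ω (s35qVb M q hq (s16lbCls M (Additive.ofMul γ))) = 0 := by
    have := DFunLike.congr_fun hω (s16lbCls M (Additive.ofMul γ))
    simpa using this
  rw [h3] at h2
  exact h2

end Phi

end Fermat.Agent.S35
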