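/-
Program Q (S36), box (K), group-theoretic side (helper13).  File Fricke.

THE BRIDGE BETWEEN helper22's GENERAL NAT-φ (via the Fricke involution, `S35/Nat/FrConj.lean`) AND THE
`φ`-TRANSFER `s35qVb` / `s35qTrB` OF `NewQ/Defs.lean`, for `q` prime, `q ∣ M`:

  `s35q_Vb_eq_fricke : s35qVb M q hq = Fr_{M q}^ab ∘ s35qVa M q ∘ Fr_M^ab`,
  `s35q_frTransfer_eq : s35natTransfer (ψ.comp (s35nfConj (M * q))) (s35nfConj M γ) = s35qTrB M q hq ψ γ`.

Proof: the composite correspondence has the representatives `w_{M q} · ξ.out⁻¹ · w_M`,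
`ξ ∈ Γ₀(M) / Γ₀(M q)`; for `g_j = [1, 0; -M j, 1]` one has `w_{M q} g_j w_M = -M · [1, j; 0, q]`, the
classes of the `g_j⁻¹`, `j : ZMod q`, exhaust `Γ₀(M) / Γ₀(M q)` (`q ∣ M`), and the matching lemma of
`S41/HK/Corr` applies (the central scalar `-M` does not change `idx`, `coc`).
-/
import Fermat.Agent.S35.NewQ.Defs
import Fermat.Agent.S35.Nat.FrConj
import Fermat.Agent.S41.HK.UCommT

set_option autoImplicit false

noncomputable section

namespace Fermat.Agent.S35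

open P2MW.S_ModularForm_heckeT_slash_eq_self_of_mem_Gamma0.ModularForm.HeckeSlashInvariance
open ModularForm CongruenceSubgroup Matrix.SpecialLinearGroup Fermat.Agent.S16LB Fermat.Agent.S41
open scoped MatrixGroups

/-! ### generalities on correspondences -/

section Generic

variable {𝔾 Γ₁ Γ₂ I : Type*} [Group 𝔾] [Group Γ₁] [Group Γ₂]

/-- multiplying all the representatives by a central element does not change `idx`, `coc`. -/
def s35qScale (C : S41Corr 𝔾 Γ₁ Γ₂ I) (z : 𝔾) (hz : ∀ g : 𝔾, z * g = g * z) :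
    S41Corr 𝔾 Γ₁ Γ₂ I where
  ι₁ := C.ι₁
  ι₂ := C.ι₂
  hι₁ := C.hι₁
  α i := z * C.α i
  idx := C.idx
  coc := C.coc
  spec γ i := by
    rw [mul_assoc, C.spec, ← mul_assoc, hz, mul_assoc]
  idx_one := C.idx_one
  idx_mul := C.idx_mul

theorem s35qScale_trAb [Fintype I] (C : S41Corr 𝔾 Γ₁ Γ₂ I) (z : 𝔾) (hz : ∀ g : 𝔾, z * g = g * z) :
    (s35qScale C z hz).trAb = C.trAb := rfl

theorem s35qScale_distinct (C : S41Corr 𝔾 Γ₁ Γ₂ I) (z : 𝔾) (hz : ∀ g : 𝔾, z * g = g * z)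
    (h : C.Distinct) : (s35qScale C z hz).Distinct := by
  intro i j γ' hγ
  have h1 : z * C.α i = C.ι₁ γ' * (z * C.α j) := hγ
  rw [← mul_assoc, ← hz, mul_assoc] at h1
  exact h i j γ' (mul_left_cancel h1)

end Generic

/-- `(χ ∘ conj_v)^ab = χ^ab ∘ (conj_v)^ab`. -/
theorem s35q_desc_comp_conj {v : Matrix (Fin 2) (Fin 2) ℤ} (hv : v.det ≠ 0) {M₁ M₂ : ℕ}
    (hc : s41hkConjugates v M₁ M₂) {A : Type*} [CommGroup A] (χ : Gamma0 M₁ →* A) :
    s16lbDesc (MonoidHom.toAdditive (χ.comp (s41hkConjHom hv hc)))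
      = (s16lbDesc (MonoidHom.toAdditive χ)).comp (s41hkConjAb hv hc) := by
  refine s16lbAb_ext fun c => ?_
  rw [s16lbDesc_cls, AddMonoidHom.comp_apply]
  have h : s41hkConjAb hv hc (s16lbCls M₂ c)
      = s16lbCls M₁ (Additive.ofMul (s41hkConjHom hv hc (Additive.toMul c))) :=
    s41hkConjAb_of hv hc (Additive.toMul c)
  rw [h, s16lbDesc_cls]
  rfl

/-- the Fricke involution on `Γ₀(N)^ab`. -/
def s35qFrAb (N : ℕ) [NeZero N] : s16lbAb N →+ s16lbAb N :=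
  s41hkConjAb (s35nfMat_det_ne_zero N) (s35nf_conjugates N)

theorem s35qFrAb_cls (N : ℕ) [NeZero N] (γ : Gamma0 N) :
    s35qFrAb N (s16lbCls N (Additive.ofMul γ)) = s16lbCls N (Additive.ofMul (s35nfConj N γ)) :=
  s41hkConjAb_of (s35nfMat_det_ne_zero N) (s35nf_conjugates N) γ

/-! ### the explicit representatives of `Γ₀(M) / Γ₀(M q)`, `q ∣ M` -/

section Reps

variable (M q : ℕ) [NeZero M] [Fact q.Prime] (hq : q ∣ M)

/-- `g_j = [1, 0; -M j, 1] ∈ Γ₀(M)`. -/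
def s35qG (j : ZMod q) : Gamma0 M :=
  ⟨⟨!![1, 0; -((M : ℤ) * (j.val : ℤ)), 1], by rw [Matrix.det_fin_two_of]; ring⟩,
    s16lb_mem_Gamma0_of_dvd (by
      show (M : ℤ) ∣ (!![1, 0; -((M : ℤ) * (j.val : ℤ)), 1] : Matrix (Fin 2) (Fin 2) ℤ) 1 0
      simp)⟩

theorem s35qG_coe (j : ZMod q) :
    (((s35qG M q j : Gamma0 M) : SL(2, ℤ)) : Matrix (Fin 2) (Fin 2) ℤ)
      = !![1, 0; -((M : ℤ) * (j.val : ℤ)), 1] := rfl

theorem s35qG_inv_coe (j : ZMod q) :
    ((((s35qG M q j)⁻¹ : Gamma0 M) : SL(2, ℤ)) : Matrix (Fin 2) (Fin 2) ℤ)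
      = !![1, 0; (M : ℤ) * (j.val : ℤ), 1] := by
  rw [Subgroup.coe_inv, Matrix.SpecialLinearGroup.coe_inv, s35qG_coe, Matrix.adjugate_fin_two_of]
  simp

/-- the class of `g_j⁻¹` in `Γ₀(M) / Γ₀(M q)`. -/
def s35qXi (j : ZMod q) : S35natQ (Gamma0 (M * q)) (Gamma0 M) :=
  QuotientGroup.mk (s35qG M q j)⁻¹

theorem s35qXi_injective : Function.Injective (s35qXi M q) := by
  intro i j hij
  unfold s35qXi at hij
  rw [QuotientGroup.eq, Subgroup.mem_subgroupOf, inv_inv] at hij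
  have h1 := s16lb_dvd_of_mem_Gamma0 hij
  have h2 : (((s35qG M q i * (s35qG M q j)⁻¹ : Gamma0 M) : SL(2, ℤ)) :
      Matrix (Fin 2) (Fin 2) ℤ) 1 0 = (M : ℤ) * ((j.val : ℤ) - (i.val : ℤ)) := by
    rw [Subgroup.coe_mul, Matrix.SpecialLinearGroup.coe_mul, s35qG_coe, s35qG_inv_coe,
      Matrix.mul_apply, Fin.sum_univ_two]
    simp
    ring
  have h3 : (((M * q : ℕ) : ℤ)) ∣ (M : ℤ) * ((j.val : ℤ) - (i.val : ℤ)) := by
    rw [← h2]
    exact h1
  have hM0 : (M : ℤ) ≠ 0 := by exact_mod_cast NeZero.ne M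
  have h4 : (q : ℤ) ∣ (j.val : ℤ) - (i.val : ℤ) := by
    push_cast at h3
    exact (mul_dvd_mul_iff_left hM0).mp h3
  exact (s41hkuct_eq_of_dvd q j i h4).symm

include hq in
theorem s35qXi_surjective : Function.Surjective (s35qXi M q) := by
  intro ξ
  set h : Gamma0 M := (ξ.out)⁻¹ with hh
  obtain ⟨c', hc'⟩ := s16lb_dvd_of_mem_Gamma0 h.2
  have hdet := (h : SL(2, ℤ)).det_coe
  rw [Matrix.det_fin_two] at hdet
  have hc'' : ((h : SL(2, ℤ)) : Matrix (Fin 2) (Fin 2) ℤ) 1 0 = (M : ℤ) * c' := hc'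
  -- `d` is a unit modulo `q`
  obtain ⟨m, rfl⟩ := hq
  have hd : (((h : SL(2, ℤ)) 0 0 : ℤ) : ZMod q) * (((h : SL(2, ℤ)) 1 1 : ℤ) : ZMod q) = 1 := by
    have := congrArg (Int.cast : ℤ → ZMod q) hdet
    rw [hc''] at this
    push_cast at this
    simpa using this
  have hd0 : (((h : SL(2, ℤ)) 1 1 : ℤ) : ZMod q) ≠ 0 := by
    intro h0
    rw [h0, mul_zero] at hd
    exact zero_ne_one hd
  set j : ZMod q := -((c' : ℤ) : ZMod q) * ((((h : SL(2, ℤ)) 1 1 : ℤ) : ZMod q))⁻¹ with hj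
  refine ⟨j, ?_⟩
  unfold s35qXi
  rw [← QuotientGroup.out_eq' ξ, eq_comm, QuotientGroup.eq, Subgroup.mem_subgroupOf]
  refine s16lb_mem_Gamma0_of_dvd ?_
  have h2 : ((((ξ.out)⁻¹ * (s35qG (q * m) q j)⁻¹ : Gamma0 (q * m)) : SL(2, ℤ)) :
      Matrix (Fin 2) (Fin 2) ℤ) 1 0
      = ((q * m : ℕ) : ℤ) * (c' + (h : SL(2, ℤ)) 1 1 * (j.val : ℤ)) := by
    rw [Subgroup.coe_mul, Matrix.SpecialLinearGroup.coe_mul, s35qG_inv_coe,
      Matrix.mul_apply, Fin.sum_univ_two]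
    simp only [Matrix.of_apply, Matrix.cons_val', Matrix.cons_val_zero, Matrix.cons_val_one,
      Matrix.empty_val', Matrix.cons_val_fin_one]
    rw [← hh, hc'']
    ring
  rw [h2]
  have h3 : (q : ℤ) ∣ c' + (h : SL(2, ℤ)) 1 1 * (j.val : ℤ) := by
    rw [← ZMod.intCast_zmod_eq_zero_iff_dvd]
    push_cast
    rw [ZMod.natCast_zmod_val, hj]
    field_simp
    ring
  push_cast
  exact mul_dvd_mul_left _ h3

variable [Fintype (S35natQ (Gamma0 (M * q)) (Gamma0 M))]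

include hq in
theorem s35q_card_Q : Fintype.card (S35natQ (Gamma0 (M * q)) (Gamma0 M)) = Fintype.card (ZMod q) :=
  (Fintype.card_of_bijective ⟨s35qXi_injective M q, s35qXi_surjective M q hq⟩).symm

end Reps

/-! ### the matching -/

section Match

variable (M q : ℕ) [NeZero M] [Fact q.Prime] (hq : q ∣ M)

/-- the central scalar `-M`. -/
def s35qZMat : Matrix (Fin 2) (Fin 2) ℤ := !![-(M : ℤ), 0; 0, -(M : ℤ)]

theorem s35qZMat_det_ne_zero : (s35qZMat M).det ≠ 0 := by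
  rw [s35qZMat, Matrix.det_fin_two_of]
  have hM0 : (M : ℤ) ≠ 0 := by exact_mod_cast NeZero.ne M
  simpa using hM0

theorem s35qZ_central (g : GL (Fin 2) ℝ) :
    s41hkGL (s35qZMat M) (s35qZMat_det_ne_zero M) * g
      = g * s41hkGL (s35qZMat M) (s35qZMat_det_ne_zero M) := by
  apply Units.ext
  rw [Units.val_mul, Units.val_mul, s41hkGL_val]
  ext i j
  fin_cases i <;> fin_cases j <;>
    simp [s35qZMat, Matrix.mul_apply, Fin.sum_univ_two] <;> ring

/-- `w_{M q} g_j w_M = -M · [1, j; 0, q]`. -/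
theorem s35q_fricke_G (j : ZMod q) :
    s35nfMat (M * q) * (((s35qG M q j : Gamma0 M) : SL(2, ℤ)) : Matrix (Fin 2) (Fin 2) ℤ)
        * s35nfMat M
      = s35qZMat M * s41hkRepMat q (j : OnePoint (ZMod q)) := by
  rw [s35qG_coe, s41hkuct_repMat_coe]
  ext a b
  fin_cases a <;> fin_cases b <;>
    simp [s35nfMat, s35qZMat, s41hkuctTri, Matrix.mul_apply, Fin.sum_univ_two] <;> ring

end Match

/-! ### the theorem -/

section Main

variable (M q : ℕ) [NeZero M] [Fact q.Prime] (hq : q ∣ M)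
  [Fintype (S35natQ (Gamma0 (M * q)) (Gamma0 M))]

omit [Fact q.Prime] [Fintype (S35natQ (Gamma0 (M * q)) (Gamma0 M))] in
theorem s35qFr_h12 [NeZero q] :
    (s41hkConjCorr (s35nfMat_det_ne_zero (M * q)) (s35nf_conjugates (M * q))).ι₂
      = (s35newNatCorr M q).ι₁ := rfl

omit [Fact q.Prime] [Fintype (S35natQ (Gamma0 (M * q)) (Gamma0 M))] in
theorem s35qFr_h23 [NeZero q] :
    ((s41hkConjCorr (s35nfMat_det_ne_zero (M * q)) (s35nf_conjugates (M * q))).comp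
      (s35newNatCorr M q) (s35qFr_h12 M q)).ι₂
      = (s41hkConjCorr (s35nfMat_det_ne_zero M) (s35nf_conjugates M)).ι₁ := rfl

/-- the composite correspondence `Fr_{M q} ∘ (transfer) ∘ Fr_M`: representatives
`w_{M q} · ξ.out⁻¹ · w_M`. -/
def s35qFrCorr : S41Corr (GL (Fin 2) ℝ) (Gamma0 (M * q)) (Gamma0 M)
    ((Unit × S35natQ (Gamma0 (M * q)) (Gamma0 M)) × Unit) :=
  ((s41hkConjCorr (s35nfMat_det_ne_zero (M * q)) (s35nf_conjugates (M * q))).comp
      (s35newNatCorr M q) (s35qFr_h12 M q)).comp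
    (s41hkConjCorr (s35nfMat_det_ne_zero M) (s35nf_conjugates M)) (s35qFr_h23 M q)

theorem s35qFrCorr_trAb :
    (s35qFrCorr M q).trAb = ((s35qFrAb (M * q)).comp (s35qVa M q)).comp (s35qFrAb M) := by
  unfold s35qFrCorr
  rw [S41Corr.comp_trAb, S41Corr.comp_trAb]
  rfl

/-- **`φ`-transfer = Fricke ∘ `α`-transfer ∘ Fricke** on the abelianisations (`q ∣ M`). -/
theorem s35q_Vb_eq_fricke :
    s35qVb M q hq = ((s35qFrAb (M * q)).comp (s35qVa M q)).comp (s35qFrAb M) := by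
  rw [← s35qFrCorr_trAb]
  have hz := s35qZ_central M
  have h1 : s35qVb M q hq
      = (s35qScale (s35qCorrB M q hq) (s41hkGL (s35qZMat M) (s35qZMat_det_ne_zero M)) hz).trAb :=
    rfl
  rw [h1]
  symm
  refine S41Corr.trAb_eq_of_matching
    (s35qScale (s35qCorrB M q hq) (s41hkGL (s35qZMat M) (s35qZMat_det_ne_zero M)) hz)
    (s35qFrCorr M q) rfl rfl
    (s35qScale_distinct _ _ _ (s35qCorrB_distinct M q hq)) ?_ ?_
  · rw [Fintype.card_prod, Fintype.card_prod, Fintype.card_unit, one_mul, mul_one]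
    exact s35q_card_Q M q hq
  · intro j
    obtain ⟨h, hh⟩ := QuotientGroup.mk_out_eq_mul
      ((Gamma0 (M * q)).subgroupOf (Gamma0 M)) (s35qG M q j)⁻¹
    set c : Gamma0 (M * q) := ⟨((h : Gamma0 M) : SL(2, ℤ)), Subgroup.mem_subgroupOf.mp h.2⟩
      with hc
    refine ⟨(((), s35qXi M q j), ()), s35nfConj (M * q) c⁻¹, ?_⟩
    show s41hkGL (s35nfMat (M * q)) (s35nfMat_det_ne_zero (M * q))
          * s16lbIota M ((s35qXi M q j).out)⁻¹
          * s41hkGL (s35nfMat M) (s35nfMat_det_ne_zero M)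
      = s16lbIota (M * q) (s35nfConj (M * q) c⁻¹)
          * (s41hkGL (s35qZMat M) (s35qZMat_det_ne_zero M)
              * heckeRep q (j : OnePoint (ZMod q)))
    have e1 : s16lbIota M ((s35qXi M q j).out)⁻¹
        = s16lbIota (M * q) c⁻¹ * s16lbIota M (s35qG M q j) := by
      have e0 : ((s35qXi M q j).out)⁻¹ = (h : Gamma0 M)⁻¹ * s35qG M q j := by
        unfold s35qXi
        rw [hh, mul_inv_rev, inv_inv]
      rw [e0, map_mul]
      rfl
    have e2 : s41hkGL (s35nfMat (M * q)) (s35nfMat_det_ne_zero (M * q))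
          * s16lbIota M (s35qG M q j) * s41hkGL (s35nfMat M) (s35nfMat_det_ne_zero M)
        = s41hkGL (s35qZMat M) (s35qZMat_det_ne_zero M)
            * heckeRep q (j : OnePoint (ZMod q)) := by
      rw [s16lbIota_apply, s41hkGL_coe_SL, s41hkGL_mul, s41hkGL_mul, s41hk_heckeRep_eq,
        s41hkGL_mul]
      exact s41hkGL_congr (s35q_fricke_G M q j) _
    rw [e1, ← mul_assoc, s35nfConj_specGL, mul_assoc, mul_assoc, ← mul_assoc (s41hkGL _ _), e2]

variable {A : Type*} [CommGroup A]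

/-- **the bridge for helper22's general NAT-φ**: the Fricke-conjugated NAT transfer is the
`φ`-transfer `s35qTrB` (`q` prime, `q ∣ M`). -/
theorem s35q_frTransfer_eq (ψ : Gamma0 (M * q) →* A) (γ : Gamma0 M) :
    s35natTransfer (ψ.comp (s35nfConj (M * q))) (s35nfConj M γ) = s35qTrB M q hq ψ γ := by
  apply Additive.ofMul.injective
  rw [s35q_natTransfer_eq, s35qTrB_eq, s35q_Vb_eq_fricke M q hq]
  have h1 : s16lbDesc (MonoidHom.toAdditive (ψ.comp (s35nfConj (M * q))))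
      = (s16lbDesc (MonoidHom.toAdditive ψ)).comp (s35qFrAb (M * q)) :=
    s35q_desc_comp_conj (s35nfMat_det_ne_zero (M * q)) (s35nf_conjugates (M * q)) ψ
  rw [h1, ← s35qFrAb_cls M γ]
  rfl

/-- if `ω` kills the image of `s35qVb`, the Fricke-conjugated NAT transfer of the character
`γ ↦ ω [γ]` is trivial. -/
theorem s35q_frTransfer_eq_one (ω : s16lbAb (M * q) →+ Additive A)
    (hω : ω.comp (s35qVb M q hq) = 0) (ψ : Gamma0 (M * q) →* A)
    (hψ : ∀ c : Gamma0 (M * q), Additive.ofMul (ψ c) = ω (s16lbCls (M * q) (Additive.ofMul c)))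
    (γ : Gamma0 M) :
    s35natTransfer (ψ.comp (s35nfConj (M * q))) (s35nfConj M γ) = 1 := by
  rw [s35q_frTransfer_eq M q hq ψ γ, s35qTrB_eq_one hq ω hω ψ hψ]
  rfl

end Main

end Fermat.Agent.S35
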