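/-
Program Q (S36), box (K), group-theoretic side (helper13).  File Comm.

THE TWO TRANSFERS OF `NewQ/Defs.lean` COMMUTE WITH THE `T_ℓ` (`ℓ ∤ M q`) AND PRESERVE THE
PARABOLIC + ELLIPTIC SUBGROUPS.

* `s35q_Va_comp_T` : `s35qVa ∘ T_ℓ = T_ℓ ∘ s35qVa`, ANY `M`, `q` (representative-free matching: for an
  integer matrix `m` of determinant `ℓ` with `M ∣ m₁₀` there is `γ ∈ Γ₀(M)` with `(m γ)₁₀ = 0`,
  `s35q_exists_gamma`; then Lemma F `s41hk_exists_heckeRep` of `S41/HK/IntMat`).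
* `s35q_Vb_comp_T` : `s35qVb ∘ T_ℓ = T_ℓ ∘ s35qVb`, `q ∣ M` (main's level-generic matching lemmas
  `s41hkuct_hex`, `s41hkuct_same_coset`, `s41hkuct_TU_inj` of `S41/HK/UCommT`).
* `s35q_Va_mem_PE`, `s35q_Vb_mem_PE`, and the `gprT` / `GasmPE` forms used by NEW-0.
-/
import Fermat.Agent.S35.NewQ.Defs
import Fermat.Agent.S35.New.Old
import Fermat.Agent.S41.HK.UCommT
import Fermat.Agent.S41.HK.VaCommT

set_option autoImplicit false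

noncomputable section

namespace Fermat.Agent.S35

open P2MW.S_ModularForm_heckeT_slash_eq_self_of_mem_Gamma0.ModularForm.HeckeSlashInvariance
open ModularForm CongruenceSubgroup Matrix.SpecialLinearGroup Fermat.Agent.S16LB Fermat.Agent.S41
  Fermat.Agent.G
open scoped MatrixGroups

/-! ### a row-reduction lemma -/

/-- for an integer matrix `m` of determinant `ℓ` (prime, `ℓ ∤ M`) with `M ∣ m₁₀` there is
`γ ∈ Γ₀(M)` with `(m γ)₁₀ = 0`. -/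
theorem s35q_exists_gamma (M : ℕ) (ℓ : ℕ) (hℓp : ℓ.Prime) (hℓ' : ¬ ℓ ∣ M)
    (m : Matrix (Fin 2) (Fin 2) ℤ) (hdet : m.det = ℓ) (hM : (M : ℤ) ∣ m 1 0) :
    ∃ γ : Gamma0 M, (m * ((γ : SL(2, ℤ)) : Matrix (Fin 2) (Fin 2) ℤ)) 1 0 = 0 := by
  obtain ⟨c, hc⟩ := hM
  rw [Matrix.det_fin_two] at hdet
  -- `m₁₁` is prime to `M`
  have hcopℓ : IsCoprime ((ℓ : ℕ) : ℤ) ((M : ℕ) : ℤ) :=
    Nat.isCoprime_iff_coprime.mpr ((hℓp.coprime_iff_not_dvd).mpr hℓ')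
  have hcop1 : IsCoprime (m 1 1) (M : ℤ) := by
    obtain ⟨u, v, huv⟩ := hcopℓ
    refine ⟨u * m 0 0, v - u * m 0 1 * c, ?_⟩
    rw [hc] at hdet
    linear_combination huv + u * hdet
  -- divide `(c, m₁₁)` by their gcd
  have hpos : 0 < Int.gcd c (m 1 1) := by
    rw [Int.gcd_pos_iff]
    by_contra hcon
    rw [not_or, not_not, not_not] at hcon
    rw [hcon.2, hc, hcon.1] at hdet
    have : ((ℓ : ℕ) : ℤ) = 0 := by linear_combination -hdet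
    exact hℓp.ne_zero (by exact_mod_cast this)
  obtain ⟨c', a, hgcd, hc', ha⟩ := Int.exists_gcd_one hpos
  generalize ((Int.gcd c (m 1 1) : ℕ) : ℤ) = d at hc' ha
  have hcop2 : IsCoprime a c' := (Int.isCoprime_iff_gcd_eq_one.mpr hgcd).symm
  have hcop3 : IsCoprime a (M : ℤ) :=
    IsCoprime.of_isCoprime_of_dvd_left hcop1 ⟨d, ha⟩
  have hcop4 : IsCoprime a ((M : ℤ) * (-c')) := hcop3.mul_right hcop2.neg_right
  obtain ⟨x, y, hxy⟩ := hcop4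
  refine ⟨⟨⟨!![a, -y; (M : ℤ) * (-c'), x], ?_⟩, ?_⟩, ?_⟩
  · rw [Matrix.det_fin_two_of]
    linear_combination hxy
  · refine s16lb_mem_Gamma0_of_dvd ?_
    show (M : ℤ) ∣ (!![a, -y; (M : ℤ) * (-c'), x] : Matrix (Fin 2) (Fin 2) ℤ) 1 0
    simp
  · show (m * (!![a, -y; (M : ℤ) * (-c'), x] : Matrix (Fin 2) (Fin 2) ℤ)) 1 0 = 0
    rw [Matrix.mul_apply, Fin.sum_univ_two]
    simp only [Matrix.of_apply, Matrix.cons_val', Matrix.cons_val_zero, Matrix.cons_val_one,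
      Matrix.empty_val', Matrix.cons_val_fin_one]
    rw [hc, ha, hc']
    ring

/-! ### the `α`-transfer -/

section Alpha

variable (M q : ℕ)

/-- the cosets `Γ₀(M q) (ξ.out)⁻¹` are pairwise distinct. -/
theorem s35newNatCorr_distinct : (s35newNatCorr M q).Distinct := by
  intro ξ ξ' c h
  have h1 : s16lbIota M (ξ.out)⁻¹ = s16lbIota (M * q) c * s16lbIota M (ξ'.out)⁻¹ := h
  have h2 : s16lbIota (M * q) c = s16lbIota M (s41hkIncl M q c) := rfl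
  rw [h2, ← map_mul] at h1
  have h3 : (ξ.out)⁻¹ = s41hkIncl M q c * (ξ'.out)⁻¹ := s16lbIota_injective M h1
  rw [← QuotientGroup.out_eq' ξ, ← QuotientGroup.out_eq' ξ', QuotientGroup.eq,
    Subgroup.mem_subgroupOf, h3, mul_assoc, inv_mul_cancel, mul_one]
  exact c.2

variable [Fintype (S35natQ (Gamma0 (M * q)) (Gamma0 M))] (ℓ : ℕ) [Fact ℓ.Prime]
  (hℓ : ¬ ℓ ∣ M * q) (hℓ' : ¬ ℓ ∣ M)

/-- the integer matching for the `α`-transfer: `β_ξ R_y = g R_y' β_ξ'` with `g ∈ Γ₀(M q)`. -/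
theorem s35q_match (hℓ : ¬ ℓ ∣ M * q) (hℓ' : ¬ ℓ ∣ M)
    (ξ : S35natQ (Gamma0 (M * q)) (Gamma0 M)) (y : OnePoint (ZMod ℓ)) :
    ∃ (y' : OnePoint (ZMod ℓ)) (ξ' : S35natQ (Gamma0 (M * q)) (Gamma0 M)) (g : SL(2, ℤ)),
      g ∈ Gamma0 (M * q) ∧
      ((((ξ.out)⁻¹ : Gamma0 M) : SL(2, ℤ)) : Matrix (Fin 2) (Fin 2) ℤ) * s41hkRepMat ℓ y
        = (g : Matrix (Fin 2) (Fin 2) ℤ) * (s41hkRepMat ℓ y'
            * ((((ξ'.out)⁻¹ : Gamma0 M) : SL(2, ℤ)) : Matrix (Fin 2) (Fin 2) ℤ)) := by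
  set B : Matrix (Fin 2) (Fin 2) ℤ := ((((ξ.out)⁻¹ : Gamma0 M) : SL(2, ℤ)) :
    Matrix (Fin 2) (Fin 2) ℤ) with hB
  have hBdet : B.det = 1 := (((ξ.out)⁻¹ : Gamma0 M) : SL(2, ℤ)).det_coe
  have hB10 : (M : ℤ) ∣ B 1 0 := s16lb_dvd_of_mem_Gamma0 ((ξ.out)⁻¹ : Gamma0 M).2
  have hmdet : (B * s41hkRepMat ℓ y).det = ℓ := by
    rw [Matrix.det_mul, hBdet, s41hkRepMat_det, one_mul]
  have hm10 : (B * s41hkRepMat ℓ y) 1 0 = B 1 0 * (s16lbRepA ℓ y : ℤ) := by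
    rw [Matrix.mul_apply, Fin.sum_univ_two]
    simp [s41hkRepMat]
  generalize B * s41hkRepMat ℓ y = m at hmdet hm10
  have hMm : (M : ℤ) ∣ m 1 0 := by
    rw [hm10]
    exact Dvd.dvd.mul_right hB10 _
  obtain ⟨γ₀, hγ₀⟩ := s35q_exists_gamma M ℓ Fact.out hℓ' m hmdet hMm
  set ξ' : S35natQ (Gamma0 (M * q)) (Gamma0 M) := QuotientGroup.mk γ₀ with hξ'
  -- `ξ'.out = γ₀ c` with `c ∈ Γ₀(M q)`
  have hcmem : ((γ₀⁻¹ * ξ'.out : Gamma0 M) : SL(2, ℤ)) ∈ Gamma0 (M * q) := by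
    have h1 : (QuotientGroup.mk (ξ'.out) : S35natQ (Gamma0 (M * q)) (Gamma0 M))
        = QuotientGroup.mk γ₀ := by
      rw [QuotientGroup.out_eq']
    rw [eq_comm, QuotientGroup.eq, Subgroup.mem_subgroupOf] at h1
    exact h1
  set c : SL(2, ℤ) := ((γ₀⁻¹ * ξ'.out : Gamma0 M) : SL(2, ℤ)) with hc
  have hout : ((ξ'.out : Gamma0 M) : SL(2, ℤ)) = (γ₀ : SL(2, ℤ)) * c := by
    rw [hc]
    push_cast
    group
  set O : Matrix (Fin 2) (Fin 2) ℤ := (((ξ'.out : Gamma0 M) : SL(2, ℤ)) :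
    Matrix (Fin 2) (Fin 2) ℤ) with hO
  have hOeq : O = ((γ₀ : SL(2, ℤ)) : Matrix (Fin 2) (Fin 2) ℤ) * (c : Matrix (Fin 2) (Fin 2) ℤ) := by
    rw [hO, hout, Matrix.SpecialLinearGroup.coe_mul]
  have hOdet : O.det = 1 := ((ξ'.out : Gamma0 M) : SL(2, ℤ)).det_coe
  have hc10 : ((M * q : ℕ) : ℤ) ∣ (c : Matrix (Fin 2) (Fin 2) ℤ) 1 0 :=
    s16lb_dvd_of_mem_Gamma0 hcmem
  have hm'det : (m * O).det = ℓ := by
    rw [Matrix.det_mul, hOdet, hmdet, mul_one]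
  have hm'10 : ((M * q : ℕ) : ℤ) ∣ (m * O) 1 0 := by
    rw [hOeq, ← Matrix.mul_assoc, Matrix.mul_apply, Fin.sum_univ_two, hγ₀, zero_mul, zero_add]
    exact Dvd.dvd.mul_left hc10 _
  obtain ⟨g, y', hg, hg10⟩ := s41hk_exists_heckeRep ℓ (m * O) hm'det
  refine ⟨y', ξ', g, ?_, ?_⟩
  · refine s16lb_mem_Gamma0_of_dvd ?_
    rw [hg10] at hm'10
    exact (s41hkvt_isCoprime_repA ℓ (M * q) hℓ y').dvd_of_dvd_mul_right hm'10
  · have hinv : O * ((((ξ'.out)⁻¹ : Gamma0 M) : SL(2, ℤ)) : Matrix (Fin 2) (Fin 2) ℤ) = 1 := by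
      rw [hO, ← Matrix.SpecialLinearGroup.coe_mul, ← Subgroup.coe_mul, mul_inv_cancel,
        Subgroup.coe_one, Matrix.SpecialLinearGroup.coe_one]
    rw [← Matrix.mul_assoc, ← hg, Matrix.mul_assoc, hinv, Matrix.mul_one]

theorem s35q_iota_eq (N : ℕ) (γ : Gamma0 N) :
    s16lbIota N γ = s41hkGL (((γ : SL(2, ℤ)) : Matrix (Fin 2) (Fin 2) ℤ))
      (by rw [(γ : SL(2, ℤ)).det_coe]; exact one_ne_zero) := by
  rw [s16lbIota_apply, s41hkGL_coe_SL]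

/-- **`s35qVa ∘ T_ℓ = T_ℓ ∘ s35qVa`** (`ℓ ∤ M q`), any `M`, `q`. -/
theorem s35q_Va_comp_T :
    (s35qVa M q).comp (s41hkT M ℓ hℓ') = (s41hkT (M * q) ℓ hℓ).comp (s35qVa M q) := by
  set CN := s35newNatCorr M q with hCN
  set CT := s41hkOfHecke (s16lbDataT M ℓ hℓ') with hCT
  set CT' := s41hkOfHecke (s16lbDataT (M * q) ℓ hℓ) with hCT'
  have hT : s41hkT M ℓ hℓ' = CT.trAb := (s41hkOfHecke_trAb _).symm
  have hT' : s41hkT (M * q) ℓ hℓ = CT'.trAb := (s41hkOfHecke_trAb _).symm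
  have hVa : s35qVa M q = CN.trAb := rfl
  rw [hT, hT', hVa, ← S41Corr.comp_trAb CN CT rfl, ← S41Corr.comp_trAb CT' CN rfl]
  symm
  refine S41Corr.trAb_eq_of_matching (CN.comp CT rfl) (CT'.comp CN rfl) rfl rfl ?_ ?_ ?_
  · exact S41Corr.comp_distinct_of_transfer _ _ _ (s41hkIncl M q) rfl
      (fun ξ => (ξ.out)⁻¹) (fun _ => rfl) (s35newNatCorr_distinct M q)
      (s41hkOfHecke_distinct _)
  · rw [Fintype.card_prod, Fintype.card_prod, mul_comm]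
  · rintro ⟨ξ, y⟩
    obtain ⟨y', ξ', g, hg, hmat⟩ := s35q_match M q ℓ hℓ hℓ' ξ y
    refine ⟨(y', ξ'), (⟨g, hg⟩ : Gamma0 (M * q))⁻¹, ?_⟩
    show heckeRep ℓ y' * s16lbIota M (ξ'.out)⁻¹
      = s16lbIota (M * q) (⟨g, hg⟩ : Gamma0 (M * q))⁻¹ * (s16lbIota M (ξ.out)⁻¹ * heckeRep ℓ y)
    have e : s16lbIota (M * q) (⟨g, hg⟩ : Gamma0 (M * q))⁻¹
        = (s16lbIota (M * q) (⟨g, hg⟩ : Gamma0 (M * q)))⁻¹ := map_inv _ _
    rw [e, eq_inv_mul_iff_mul_eq, s41hk_heckeRep_eq, s41hk_heckeRep_eq,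
      s35q_iota_eq M, s35q_iota_eq M, s35q_iota_eq (M * q), s41hkGL_mul,
      s41hkGL_mul, s41hkGL_mul]
    exact s41hkGL_congr hmat.symm _

/-- `s35qVa` preserves the parabolic + elliptic subgroups. -/
theorem s35q_Va_mem_PE {x : s16lbAb M} (hx : x ∈ gprPE M) : s35qVa M q x ∈ gprPE (M * q) :=
  s41hk_trAb_mem_PE (s35newNatCorr M q) rfl rfl hx

theorem s35q_Va_PE {A : Type*} [AddCommGroup A] (χ : s16lbAb (M * q) →+ A) (hχ : GasmPE χ) :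
    GasmPE (χ.comp (s35qVa M q)) := by
  rw [s35new_gasmPE_iff] at hχ ⊢
  intro x hx
  exact hχ (s35q_Va_mem_PE M q hx)

/-- `s35qVa ∘ T_ℓ = T_ℓ ∘ s35qVa` in terms of `gprT`. -/
theorem s35q_Va_comp_gprT (ℓ : ℕ) (hℓp : ℓ.Prime) (hℓN : ¬ ℓ ∣ M * q) :
    (s35qVa M q).comp (gprT M ℓ) = (gprT (M * q) ℓ).comp (s35qVa M q) := by
  haveI : Fact ℓ.Prime := ⟨hℓp⟩
  have hℓ' : ¬ ℓ ∣ M := fun h => hℓN (dvd_mul_of_dvd_left h q)
  rw [gprT_eq M hℓ', gprT_eq (M * q) hℓN]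
  exact s35q_Va_comp_T M q ℓ hℓN hℓ'

end Alpha

/-! ### the `φ`-transfer, `q ∣ M` -/

section Phi

variable (M q : ℕ) [Fact q.Prime] (hq : q ∣ M) (ℓ : ℕ) [Fact ℓ.Prime]
  (hℓ : ¬ ℓ ∣ M * q) (hℓ' : ¬ ℓ ∣ M)

/-- **`s35qVb ∘ T_ℓ = T_ℓ ∘ s35qVb`** (`ℓ ∤ M q`, `q ∣ M`). -/
theorem s35q_Vb_comp_T :
    (s35qVb M q hq).comp (s41hkT M ℓ hℓ') = (s41hkT (M * q) ℓ hℓ).comp (s35qVb M q hq) := by
  have hqℓ : q ≠ ℓ := by
    rintro rfl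
    exact hℓ (dvd_mul_left _ _)
  set CB := s35qCorrB M q hq with hCB
  set CT := s41hkOfHecke (s16lbDataT M ℓ hℓ') with hCT
  set CT' := s41hkOfHecke (s16lbDataT (M * q) ℓ hℓ) with hCT'
  have hT : s41hkT M ℓ hℓ' = CT.trAb := (s41hkOfHecke_trAb _).symm
  have hT' : s41hkT (M * q) ℓ hℓ = CT'.trAb := (s41hkOfHecke_trAb _).symm
  have hVb : s35qVb M q hq = CB.trAb := rfl
  rw [hT, hT', hVb, ← S41Corr.comp_trAb CB CT rfl, ← S41Corr.comp_trAb CT' CB rfl]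
  refine S41Corr.trAb_eq_of_matching (CT'.comp CB rfl) (CB.comp CT rfl) rfl rfl ?_ ?_ ?_
  · rintro ⟨y, j⟩ ⟨y', j'⟩ γ hγ
    have h1 : heckeRep ℓ y * heckeRep q (j : OnePoint (ZMod q))
        = s16lbIota (M * q) γ * (heckeRep ℓ y' * heckeRep q (j' : OnePoint (ZMod q))) := hγ
    rw [s41hkuct_TU_rep, s41hkuct_TU_rep] at h1
    obtain ⟨hA, hD, hdvd⟩ := s41hkuct_same_coset (s41hkuct_repA_pos ℓ y)
      (s41hkuct_repA_pos ℓ y') _ _ γ h1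
    exact s41hkuct_TU_inj q ℓ hqℓ y y' j j' hA hdvd
  · rw [Fintype.card_prod, Fintype.card_prod, mul_comm]
  · rintro ⟨y, j⟩
    obtain ⟨j', y', γ, h⟩ := s41hkuct_hex q ℓ (M * q) y j
    exact ⟨(j', y'), γ, h⟩

/-- `s35qVb` preserves the parabolic + elliptic subgroups. -/
theorem s35q_Vb_mem_PE {x : s16lbAb M} (hx : x ∈ gprPE M) : s35qVb M q hq x ∈ gprPE (M * q) :=
  s41hk_trAb_mem_PE (s35qCorrB M q hq) rfl rfl hx

theorem s35q_Vb_PE {A : Type*} [AddCommGroup A] (χ : s16lbAb (M * q) →+ A) (hχ : GasmPE χ) :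
    GasmPE (χ.comp (s35qVb M q hq)) := by
  rw [s35new_gasmPE_iff] at hχ ⊢
  intro x hx
  exact hχ (s35q_Vb_mem_PE M q hq hx)

/-- `s35qVb ∘ T_ℓ = T_ℓ ∘ s35qVb` in terms of `gprT`. -/
theorem s35q_Vb_comp_gprT (ℓ : ℕ) (hℓp : ℓ.Prime) (hℓN : ¬ ℓ ∣ M * q) :
    (s35qVb M q hq).comp (gprT M ℓ) = (gprT (M * q) ℓ).comp (s35qVb M q hq) := by
  haveI : Fact ℓ.Prime := ⟨hℓp⟩
  have hℓ' : ¬ ℓ ∣ M := fun h => hℓN (dvd_mul_of_dvd_left h q)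
  rw [gprT_eq M hℓ', gprT_eq (M * q) hℓN]
  exact s35q_Vb_comp_T M q hq ℓ hℓN hℓ'

end Phi

end Fermat.Agent.S35
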