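/-
Program Q (S36), box (K), group-theoretic side (helper13).  File Main.

NEW-0 FOR THE FACTORISATIONS `N = M' q` WITH `q ∣ M'` (and, at the same time, for those with
`q ∤ M'` of `New/Old.lean`): the eigencharacter `ω : Γ₀(N)^ab → Frac 𝒪'` of a newform `g` of level `N`
(system `iota ∘ chig` away from `S`) can be chosen killing the images of ALL the transfers

* `D.Va`, `D.Vb` (`q ∤ M'`, `D : S41hkAL M' q`; main's `S41/HK`),
* `s35qVa M' q`, `s35qVb M' q hqM` (`hqM : q ∣ M'`; `NewQ/Defs.lean`).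

`s35qPEq M` : the set of old classes of the second kind; `s35q_kills_PEq_iff`;
`s35q_hNew0` : `hNew0` of `S35asmKummerBox` (helper2) LITERALLY, for `PEq := s35qPEq M`;
`s35q_hNew0_both` : the same for `PEq := s35newPEq M ∪ s35qPEq M`.
-/
import Fermat.Agent.S35.NewQ.Comm
import Fermat.Agent.S35.New.Box

set_option autoImplicit false

namespace Fermat.Agent.S35

open Fermat.Agent.S16LB Fermat.Agent.G Fermat.Agent.S41
open CongruenceSubgroup ModularFormClass
open scoped MatrixGroups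

/-- the index set of the transfers of the second kind into level `N`: factorisations `N = M' q`,
`q` prime, `q ∣ M'`, and the choice `α` (`true`) / `φ` (`false`). -/
structure S35qIdx (N : ℕ) where
  M' : ℕ
  q : ℕ
  hq : q.Prime
  h : M' * q = N
  hqM : q ∣ M'
  b : Bool

theorem S35qIdx.M'_ne_zero {N : ℕ} [NeZero N] (j : S35qIdx N) : j.M' ≠ 0 :=
  fun h0 => NeZero.ne N (by rw [← j.h, h0, zero_mul])

/-- the finiteness of `Γ₀(M') / Γ₀(M' q)` as a `Fintype` structure (classical). -/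
@[instance_reducible]
noncomputable def s35qFintype (M' q : ℕ) (hM' : M' ≠ 0) (hq : q ≠ 0) :
    Fintype (S35natQ (Gamma0 (M' * q)) (Gamma0 M')) :=
  haveI : NeZero M' := ⟨hM'⟩
  haveI : NeZero q := ⟨hq⟩
  Fintype.ofFinite _

/-- the transfer attached to an index. -/
noncomputable def S35qIdx.V {N : ℕ} [NeZero N] (j : S35qIdx N) : s16lbAb j.M' →+ s16lbAb N :=
  haveI : Fact j.q.Prime := ⟨j.hq⟩
  haveI : Fintype (S35natQ (Gamma0 (j.M' * j.q)) (Gamma0 j.M')) :=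
    s35qFintype j.M' j.q j.M'_ne_zero j.hq.ne_zero
  (s35newCast j.h).comp (if j.b then s35qVa j.M' j.q else s35qVb j.M' j.q j.hqM)

/-- **NEW-0 for all the transfers (both kinds) at once.** -/
theorem s35q_main_old {N : ℕ} [NeZero N] {g : CuspForm (Gamma0 N) 2} (hg : g.IsNewform)
    (S : Finset ℕ) (𝒪' : Type) [CommRing 𝒪'] [IsDomain 𝒪'] [CharZero 𝒪']
    (chig : CuspForm.heckeAlgebra N 2 (↑S : Set ℕ) →+* ℂ)
    (hchig : ∀ (ℓ : ℕ) (hℓ : ℓ.Prime) (hℓN : ¬ ℓ ∣ N) (hℓS : ℓ ∉ (↑S : Set ℕ)),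
      chig (CuspForm.heckeAlgebra.T hℓ hℓN hℓS) = qCoeff ⇑g ℓ)
    (iota : chig.range →+* 𝒪') :
    ∃ ω : s16lbAb N →+ FractionRing 𝒪', ω ≠ 0 ∧ GasmPE ω ∧
      (∀ (ℓ : ℕ) [Fact ℓ.Prime] (hℓN : ¬ ℓ ∣ N) (hℓS : ℓ ∉ (↑S : Set ℕ)),
        ω.comp (gasmTr N ℓ hℓN) =
          ((algebraMap 𝒪' (FractionRing 𝒪')).comp (iota.comp chig.rangeRestrict))
            (CuspForm.heckeAlgebra.T Fact.out hℓN hℓS) • ω) ∧
      (∀ (M' q : ℕ) [Fact q.Prime] (h : M' * q = N) (D : S41hkAL M' q),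
        ω.comp ((s35newCast h).comp D.Va) = 0 ∧ ω.comp ((s35newCast h).comp D.Vb) = 0) ∧
      (∀ (M' q : ℕ) [Fact q.Prime] (h : M' * q = N) (hqM : q ∣ M')
        [Fintype (S35natQ (Gamma0 (M' * q)) (Gamma0 M'))],
        ω.comp ((s35newCast h).comp (s35qVa M' q)) = 0 ∧
          ω.comp ((s35newCast h).comp (s35qVb M' q hqM)) = 0) := by
  have hN : N ≠ 0 := NeZero.ne N
  -- the index set: both kinds
  let Mf : S35newIdx N ⊕ S35qIdx N → ℕ := Sum.elim (fun j => j.M') (fun j => j.M')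
  haveI hne : ∀ j, NeZero (Mf j) := by
    rintro (j | j)
    · exact ⟨fun h0 => hN (by rw [← j.h, show j.M' = 0 from h0, zero_mul])⟩
    · exact ⟨j.M'_ne_zero⟩
  have hM' : ∀ j, Mf j ∣ N ∧ Mf j ≠ N := by
    have key : ∀ (m q : ℕ), q.Prime → m * q = N → m ∣ N ∧ m ≠ N := by
      intro m q hq h
      refine ⟨⟨q, h.symm⟩, fun hmN => ?_⟩
      have hm0 : m ≠ 0 := fun h0 => hN (by rw [← h, h0, zero_mul])
      have h1 : m * q = m * 1 := by rw [mul_one, h, hmN]
      have h2 := Nat.eq_of_mul_eq_mul_left (Nat.pos_of_ne_zero hm0) h1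
      exact hq.one_lt.ne' h2
    rintro (j | j)
    · exact key j.M' j.q j.hq j.h
    · exact key j.M' j.q j.hq j.h
  let Vf : ∀ j, s16lbAb (Mf j) →+ s16lbAb N := fun j =>
    match j with
    | Sum.inl j => j.V
    | Sum.inr j => j.V
  obtain ⟨ω, hω0, hωPE, hωT, hωV⟩ := s35new_main hg S 𝒪' chig hchig iota Mf hM' Vf
    (by
      rintro (j | j) A _ _ χ hχ
      · haveI : Fact j.q.Prime := ⟨j.hq⟩
        have h1 := s35newCast_PE j.h χ hχ
        show GasmPE (χ.comp j.V)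
        unfold S35newIdx.V
        rw [← AddMonoidHom.comp_assoc]
        by_cases hb : j.b = true
        · rw [if_pos hb]
          exact s35new_Va_PE j.D _ h1
        · rw [if_neg hb]
          exact s35new_Vb_PE j.D _ h1
      · haveI : Fact j.q.Prime := ⟨j.hq⟩
        letI : Fintype (S35natQ (Gamma0 (j.M' * j.q)) (Gamma0 j.M')) :=
          s35qFintype j.M' j.q j.M'_ne_zero j.hq.ne_zero
        have h1 := s35newCast_PE j.h χ hχ
        show GasmPE (χ.comp j.V)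
        unfold S35qIdx.V
        rw [← AddMonoidHom.comp_assoc]
        by_cases hb : j.b = true
        · rw [if_pos hb]
          exact s35q_Va_PE j.M' j.q _ h1
        · rw [if_neg hb]
          exact s35q_Vb_PE j.M' j.q j.hqM _ h1)
    (by
      rintro (j | j) A _ _ χ _ ℓ hℓ hℓN
      · haveI : Fact j.q.Prime := ⟨j.hq⟩
        have hℓN' : ¬ ℓ ∣ j.M' * j.q := by rw [j.h]; exact hℓN
        have key : (gprT N ℓ).comp j.V = j.V.comp (gprT j.M' ℓ) := by
          unfold S35newIdx.V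
          rw [← AddMonoidHom.comp_assoc, s35newCast_gprT j.h ℓ, AddMonoidHom.comp_assoc,
            AddMonoidHom.comp_assoc]
          congr 1
          by_cases hb : j.b = true
          · rw [if_pos hb]
            exact (s35new_Va_comp_gprT j.D ℓ hℓ hℓN').symm
          · rw [if_neg hb]
            exact (s35new_Vb_comp_gprT j.D ℓ hℓ hℓN').symm
        show (χ.comp (gprT N ℓ)).comp j.V = (χ.comp j.V).comp (gprT j.M' ℓ)
        rw [AddMonoidHom.comp_assoc, key, ← AddMonoidHom.comp_assoc]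
      · haveI : Fact j.q.Prime := ⟨j.hq⟩
        letI : Fintype (S35natQ (Gamma0 (j.M' * j.q)) (Gamma0 j.M')) :=
          s35qFintype j.M' j.q j.M'_ne_zero j.hq.ne_zero
        have hℓN' : ¬ ℓ ∣ j.M' * j.q := by rw [j.h]; exact hℓN
        have key : (gprT N ℓ).comp j.V = j.V.comp (gprT j.M' ℓ) := by
          unfold S35qIdx.V
          rw [← AddMonoidHom.comp_assoc, s35newCast_gprT j.h ℓ, AddMonoidHom.comp_assoc,
            AddMonoidHom.comp_assoc]
          congr 1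
          by_cases hb : j.b = true
          · rw [if_pos hb]
            exact (s35q_Va_comp_gprT j.M' j.q ℓ hℓ hℓN').symm
          · rw [if_neg hb]
            exact (s35q_Vb_comp_gprT j.M' j.q j.hqM ℓ hℓ hℓN').symm
        show (χ.comp (gprT N ℓ)).comp j.V = (χ.comp j.V).comp (gprT j.M' ℓ)
        rw [AddMonoidHom.comp_assoc, key, ← AddMonoidHom.comp_assoc])
  refine ⟨ω, hω0, hωPE, hωT, ?_, ?_⟩
  · intro M' q hq h D
    refine ⟨?_, ?_⟩
    · exact hωV (Sum.inl ⟨M', q, hq.out, h, D, true⟩)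
    · exact hωV (Sum.inl ⟨M', q, hq.out, h, D, false⟩)
  · intro M' q hq h hqM inst
    have hinst : inst = s35qFintype M' q
        (fun h0 => hN (by rw [← h, h0, zero_mul])) hq.out.ne_zero := Subsingleton.elim _ _
    subst hinst
    refine ⟨?_, ?_⟩
    · exact hωV (Sum.inr ⟨M', q, hq.out, h, hqM, true⟩)
    · exact hωV (Sum.inr ⟨M', q, hq.out, h, hqM, false⟩)

/-! ### the old classes of the second kind and `hNew0` -/

/-- the old classes of `Γ₀(M)^ab` of the second kind: images of the two transfers from the levels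
`M / q`, `q² ∣ M`. -/
def s35qPEq (M : ℕ) : Set (s16lbAb M) :=
  {x | ∃ (M' q : ℕ) (hq : q.Prime) (h : M' * q = M) (hqM : q ∣ M')
    (_ : Fintype (S35natQ (Gamma0 (M' * q)) (Gamma0 M'))) (y : s16lbAb M'),
    haveI : Fact q.Prime := ⟨hq⟩
    x = s35newCast h (s35qVa M' q y) ∨ x = s35newCast h (s35qVb M' q hqM y)}

/-- a character kills `s35qPEq M` iff it kills both transfers for all factorisations with
`q ∣ M'`. -/
theorem s35q_kills_PEq_iff {M : ℕ} {A : Type*} [AddCommGroup A] (χ : s16lbAb M →+ A) :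
    (∀ s ∈ s35qPEq M, χ s = 0) ↔
      ∀ (M' q : ℕ) [Fact q.Prime] (h : M' * q = M) (hqM : q ∣ M')
        [Fintype (S35natQ (Gamma0 (M' * q)) (Gamma0 M'))],
        χ.comp ((s35newCast h).comp (s35qVa M' q)) = 0 ∧
          χ.comp ((s35newCast h).comp (s35qVb M' q hqM)) = 0 := by
  constructor
  · intro hχ M' q hq h hqM inst
    refine ⟨AddMonoidHom.ext fun y => ?_, AddMonoidHom.ext fun y => ?_⟩
    · exact hχ _ ⟨M', q, hq.out, h, hqM, inst, y, Or.inl rfl⟩
    · exact hχ _ ⟨M', q, hq.out, h, hqM, inst, y, Or.inr rfl⟩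
  · rintro hχ _ ⟨M', q, hq, h, hqM, inst, y, rfl | rfl⟩
    · haveI : Fact q.Prime := ⟨hq⟩
      exact DFunLike.congr_fun (hχ M' q h hqM).1 y
    · haveI : Fact q.Prime := ⟨hq⟩
      exact DFunLike.congr_fun (hχ M' q h hqM).2 y

/-- **`hNew0` of the Kummer box for `PEq := s35newPEq M ∪ s35qPEq M`.** -/
theorem s35q_hNew0_both {M : ℕ} [NeZero M] {g : CuspForm (Gamma0 M) 2} (hg : g.IsNewform)
    (S : Finset ℕ) (O' : Type) [CommRing O'] [IsDomain O'] [CharZero O']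
    (chig : CuspForm.heckeAlgebra M 2 (↑S : Set ℕ) →+* ℂ)
    (hchig : ∀ (ℓ : ℕ) (hℓ : ℓ.Prime) (hℓM : ¬ ℓ ∣ M) (hℓS : ℓ ∉ (↑S : Set ℕ)),
      chig (CuspForm.heckeAlgebra.T hℓ hℓM hℓS) = qCoeff ⇑g ℓ)
    (iota : chig.range →+* O') :
    ∃ ω : s16lbAb M →+ FractionRing O', ω ≠ 0 ∧
      (∀ s ∈ gadwPE M ∪ (s35newPEq M ∪ s35qPEq M), ω s = 0) ∧
      ∀ (ℓ : ℕ) [Fact ℓ.Prime] (hℓM : ¬ ℓ ∣ M) (hℓS : ℓ ∉ (↑S : Set ℕ)),
        ω.comp (gasmTr M ℓ hℓM) =
          ((algebraMap O' (FractionRing O')).comp (iota.comp chig.rangeRestrict))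
            (CuspForm.heckeAlgebra.T Fact.out hℓM hℓS) • ω := by
  obtain ⟨ω, hω0, hωPE, hωT, hωV, hωQ⟩ := s35q_main_old hg S O' chig hchig iota
  refine ⟨ω, hω0, ?_, hωT⟩
  rintro s (hs | hs | hs)
  · exact (gadw_kills_iff ω).mpr hωPE s hs
  · exact (s35new_kills_PEq_iff ω).mpr (fun M' q _ h D => hωV M' q h D) s hs
  · exact (s35q_kills_PEq_iff ω).mpr (fun M' q _ h hqM _ => hωQ M' q h hqM) s hs

/-- **`hNew0` of the Kummer box for `PEq := s35qPEq M`, literally.** -/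
theorem s35q_hNew0 {M : ℕ} [NeZero M] {g : CuspForm (Gamma0 M) 2} (hg : g.IsNewform)
    (S : Finset ℕ) (O' : Type) [CommRing O'] [IsDomain O'] [CharZero O']
    (chig : CuspForm.heckeAlgebra M 2 (↑S : Set ℕ) →+* ℂ)
    (hchig : ∀ (ℓ : ℕ) (hℓ : ℓ.Prime) (hℓM : ¬ ℓ ∣ M) (hℓS : ℓ ∉ (↑S : Set ℕ)),
      chig (CuspForm.heckeAlgebra.T hℓ hℓM hℓS) = qCoeff ⇑g ℓ)
    (iota : chig.range →+* O') :
    ∃ ω : s16lbAb M →+ FractionRing O', ω ≠ 0 ∧ (∀ s ∈ gadwPE M ∪ s35qPEq M, ω s = 0) ∧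
      ∀ (ℓ : ℕ) [Fact ℓ.Prime] (hℓM : ¬ ℓ ∣ M) (hℓS : ℓ ∉ (↑S : Set ℕ)),
        ω.comp (gasmTr M ℓ hℓM) =
          ((algebraMap O' (FractionRing O')).comp (iota.comp chig.rangeRestrict))
            (CuspForm.heckeAlgebra.T Fact.out hℓM hℓS) • ω := by
  obtain ⟨ω, hω0, hωk, hωT⟩ := s35q_hNew0_both hg S O' chig hchig iota
  refine ⟨ω, hω0, ?_, hωT⟩
  rintro s (hs | hs)
  · exact hωk s (Or.inl hs)
  · exact hωk s (Or.inr (Or.inr hs))

end Fermat.Agent.S35
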